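import Mathlib

/-!
# P-CFT (S14), module G-COC, part 1: pure algebra of a non-split extension

`G` acts on a `ZMod p`-module `V` with `p ^ 2` elements, trivially on a line `C` and through a
character `χ` on `V / C`.  We study the kernel `N` of the action inside `ker χ`:
the map `g ↦ g • v₀ - v₀` is an injective additive cocycle `ker χ / N → C`, it satisfies
`d (τ g τ⁻¹) = χ(τ)⁻¹ d g`, and if `ker χ` acts trivially (and `χ ≠ 1`) the extension splits.
-/

set_option autoImplicit false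

namespace Fermat.Agent.S14.GlueCoc

variable {G : Type*} [Group G] {p : ℕ} [Fact p.Prime]
  {V : Type*} [AddCommGroup V] [Module (ZMod p) V] [DistribMulAction G V]
  [SMulCommClass G (ZMod p) V]

/-- the abstract hypotheses: trivial action on `C`, action through `χ` on `V / C`, sizes -/
structure Adm (χ : G →* (ZMod p)ˣ) (C : Submodule (ZMod p) V) : Prop where
  fixed_sub : ∀ σ : G, ∀ x ∈ C, σ • x = x
  cyclo_quot : ∀ σ : G, ∀ x : V, σ • x - ((χ σ : (ZMod p)ˣ) : ZMod p) • x ∈ C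
  card_sub : Nat.card C = p
  card_total : Nat.card V = p ^ 2

/-- the kernel of the action on `V` -/
def kerAct (G : Type*) [Group G] (V : Type*) [AddCommGroup V] [DistribMulAction G V] :
    Subgroup G where
  carrier := {σ | ∀ v : V, σ • v = v}
  one_mem' := fun v => one_smul G v
  mul_mem' := fun {a b} ha hb v => by rw [mul_smul, hb v, ha v]
  inv_mem' := fun {a} ha v => by
    have := ha v
    rw [inv_smul_eq_iff]; exact this.symm

lemma mem_kerAct {σ : G} : σ ∈ kerAct G V ↔ ∀ v : V, σ • v = v := Iff.rfl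

instance kerAct_normal : (kerAct G V).Normal where
  conj_mem := fun n hn g v => by
    rw [mul_smul, mul_smul, hn (g⁻¹ • v), smul_inv_smul]

variable {χ : G →* (ZMod p)ˣ} {C : Submodule (ZMod p) V}

namespace Adm

variable (h : Adm χ C)
include h

lemma finite_V : Finite V := by
  apply Nat.finite_of_card_ne_zero
  rw [h.card_total]
  exact pow_ne_zero _ (Fact.out : p.Prime).ne_zero

lemma ne_top : C ≠ ⊤ := by
  intro htop
  have h1 : Nat.card C = Nat.card V := by
    rw [htop]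
    exact Nat.card_congr (Submodule.topEquiv (R := ZMod p) (M := V)).toEquiv
  rw [h.card_sub, h.card_total] at h1
  have hp := (Fact.out : p.Prime)
  have : p * 1 = p * p := by rw [mul_one, ← sq]; exact h1
  have := Nat.eq_of_mul_eq_mul_left hp.pos this
  exact hp.one_lt.ne this

lemma exists_not_mem : ∃ v₀ : V, v₀ ∉ C := by
  by_contra hcon
  push_neg at hcon
  exact h.ne_top (eq_top_iff.mpr fun x _ => hcon x)

/-- every vector is `a • v₀ + c` with `c ∈ C` -/
lemma exists_decomp {v₀ : V} (hv₀ : v₀ ∉ C) (x : V) :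
    ∃ (a : ZMod p) (c : V), c ∈ C ∧ x = a • v₀ + c := by
  haveI := h.finite_V
  haveI : Finite C := Finite.of_injective _ Subtype.val_injective
  let f : C × ZMod p → V := fun q => q.2 • v₀ + (q.1 : V)
  have hinj : Function.Injective f := by
    rintro ⟨c, a⟩ ⟨c', a'⟩ hq
    simp only [f] at hq
    have h1 : (a - a') • v₀ = (c' : V) - c := by
      rw [sub_smul]
      have := hq
      calc a • v₀ - a' • v₀ = (a • v₀ + (c : V)) - (a' • v₀ + (c : V)) := by abel
        _ = (a' • v₀ + (c' : V)) - (a' • v₀ + (c : V)) := by rw [this]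
        _ = (c' : V) - c := by abel
    have ha : a = a' := by
      by_contra hne
      have hne' : a - a' ≠ 0 := sub_ne_zero.mpr hne
      apply hv₀
      have h2 : (a - a') • v₀ ∈ C := by rw [h1]; exact C.sub_mem c'.2 c.2
      have := C.smul_mem (a - a')⁻¹ h2
      rwa [smul_smul, inv_mul_cancel₀ hne', one_smul] at this
    subst ha
    have hc : (c : V) = c' := by
      have := hq
      exact add_left_cancel this
    exact Prod.ext (Subtype.ext hc) rfl
  have hcard : Nat.card (C × ZMod p) = Nat.card V := by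
    rw [Nat.card_prod, h.card_sub, Nat.card_zmod, h.card_total, sq]
  have hbij : Function.Bijective f :=
    (Nat.bijective_iff_injective_and_card f).mpr ⟨hinj, hcard⟩
  obtain ⟨⟨c, a⟩, hq⟩ := hbij.2 x
  exact ⟨a, c, c.2, hq.symm⟩

/-- the kernel of the action is contained in the kernel of the character -/
lemma kerAct_le_ker : kerAct G V ≤ χ.ker := by
  intro σ hσ
  rw [MonoidHom.mem_ker]
  obtain ⟨v₀, hv₀⟩ := h.exists_not_mem
  by_contra hne
  have hne' : (1 : ZMod p) - ((χ σ : (ZMod p)ˣ) : ZMod p) ≠ 0 := by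
    intro h0
    apply hne
    apply Units.ext
    rw [Units.val_one]
    exact (sub_eq_zero.mp h0).symm
  have h1 := h.cyclo_quot σ v₀
  rw [hσ v₀] at h1
  have h2 : ((1 : ZMod p) - ((χ σ : (ZMod p)ˣ) : ZMod p)) • v₀ ∈ C := by
    rw [sub_smul, one_smul]; exact h1
  have := C.smul_mem ((1 : ZMod p) - ((χ σ : (ZMod p)ˣ) : ZMod p))⁻¹ h2
  rw [smul_smul, inv_mul_cancel₀ hne', one_smul] at this
  exact hv₀ this

/-- elements of `ker χ` move every vector inside `C` -/
lemma smul_sub_mem {g : G} (hg : g ∈ χ.ker) (x : V) : g • x - x ∈ C := by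
  have := h.cyclo_quot g x
  rw [MonoidHom.mem_ker] at hg
  rwa [hg, Units.val_one, one_smul] at this

/-- an element of `ker χ` fixing one vector outside `C` acts trivially -/
lemma mem_kerAct_of_fix {g : G} (hg : g ∈ χ.ker) {v₀ : V} (hv₀ : v₀ ∉ C)
    (hfix : g • v₀ = v₀) : g ∈ kerAct G V := by
  intro x
  obtain ⟨a, c, hc, rfl⟩ := h.exists_decomp hv₀ x
  rw [smul_add, smul_comm, hfix, h.fixed_sub g c hc]

/-- the cocycle `g ↦ g • v₀ - v₀` is additive on `ker χ` -/
lemma cocycle_mul {g g' : G} (hg : g ∈ χ.ker) (hg' : g' ∈ χ.ker) (v₀ : V) :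
    (g * g') • v₀ - v₀ = (g • v₀ - v₀) + (g' • v₀ - v₀) := by
  have h1 : g • (g' • v₀ - v₀) = g' • v₀ - v₀ :=
    h.fixed_sub g _ (h.smul_sub_mem hg' v₀)
  rw [mul_smul]
  have : g • g' • v₀ = g • (g' • v₀ - v₀) + g • v₀ := by
    rw [smul_sub, sub_add_cancel]
  rw [this, h1]
  abel

lemma cocycle_pow {g : G} (hg : g ∈ χ.ker) (v₀ : V) (n : ℕ) :
    (g ^ n) • v₀ - v₀ = n • (g • v₀ - v₀) := by
  induction n with
  | zero => simp
  | succ n ih =>
    rw [pow_succ, h.cocycle_mul (χ.ker.pow_mem hg n) hg, ih, succ_nsmul]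

lemma cocycle_inv {g : G} (hg : g ∈ χ.ker) (v₀ : V) :
    g⁻¹ • v₀ - v₀ = - (g • v₀ - v₀) := by
  have h1 := h.cocycle_mul hg (χ.ker.inv_mem hg) v₀
  rw [mul_inv_cancel, one_smul, sub_self] at h1
  exact eq_neg_of_add_eq_zero_right h1.symm

/-- the `p`-th power of an element of `ker χ` acts trivially -/
lemma pow_p_mem_kerAct {g : G} (hg : g ∈ χ.ker) : g ^ p ∈ kerAct G V := by
  obtain ⟨v₀, hv₀⟩ := h.exists_not_mem
  apply h.mem_kerAct_of_fix (χ.ker.pow_mem hg p) hv₀
  have h1 := h.cocycle_pow hg v₀ p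
  have h2 : (p : ℕ) • (g • v₀ - v₀) = 0 := by
    have : ((p : ℕ) : ZMod p) • (g • v₀ - v₀) = 0 := by
      rw [ZMod.natCast_self, zero_smul]
    rwa [Nat.cast_smul_eq_nsmul] at this
  rw [h2] at h1
  exact sub_eq_zero.mp h1

/-- conjugation law: `d (τ g τ⁻¹) = χ(τ)⁻¹ • d g`, in the form
`χ(τ) • d (τ g τ⁻¹) = d g` with `d g = g • v - v`; valid for every vector `v`. -/
lemma conj_cocycle (τ : G) {g : G} (hg : g ∈ χ.ker) (v : V) :
    ((χ τ : (ZMod p)ˣ) : ZMod p) • ((τ * g * τ⁻¹) • v - v) = g • v - v := by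
  set a : ZMod p := ((χ τ : (ZMod p)ˣ) : ZMod p) with ha
  have ha0 : a ≠ 0 := (χ τ).ne_zero
  -- `w := τ⁻¹ • v`; then `τ g τ⁻¹ v - v = τ (g w - w) = g w - w`
  set w : V := τ⁻¹ • v with hw
  have h1 : (τ * g * τ⁻¹) • v - v = g • w - w := by
    have : (τ * g * τ⁻¹) • v - v = τ • (g • w - w) := by
      rw [mul_smul, mul_smul, smul_sub, hw, smul_inv_smul]
    rw [this]
    exact h.fixed_sub τ _ (h.smul_sub_mem hg w)
  rw [h1]
  -- `v = τ w = a w + c` with `c ∈ C`
  have h2 : τ • w - a • w ∈ C := h.cyclo_quot τ w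
  have hv : v = a • w + (τ • w - a • w) := by
    rw [hw, smul_inv_smul]; abel
  have h3 : g • v - v = a • (g • w - w) := by
    conv_lhs => rw [hv]
    rw [smul_add, h.fixed_sub g _ h2, smul_comm, smul_sub]
    abel
  rw [h3]

/-- conjugation law for the kernel: `(τ g τ⁻¹) ^ a * g⁻¹` acts trivially whenever the natural
number `a` represents `χ τ`. -/
lemma conj_pow_mul_inv_mem (τ : G) {g : G} (hg : g ∈ χ.ker) (a : ℕ)
    (ha : (a : ZMod p) = ((χ τ : (ZMod p)ˣ) : ZMod p)) :
    (τ * g * τ⁻¹) ^ a * g⁻¹ ∈ kerAct G V := by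
  obtain ⟨v₀, hv₀⟩ := h.exists_not_mem
  have hconj : τ * g * τ⁻¹ ∈ χ.ker := by
    have := (inferInstance : χ.ker.Normal).conj_mem g hg τ
    exact this
  have hmem : (τ * g * τ⁻¹) ^ a * g⁻¹ ∈ χ.ker :=
    χ.ker.mul_mem (χ.ker.pow_mem hconj a) (χ.ker.inv_mem hg)
  apply h.mem_kerAct_of_fix hmem hv₀
  have h1 := h.cocycle_mul (χ.ker.pow_mem hconj a) (χ.ker.inv_mem hg) v₀
  rw [h.cocycle_pow hconj, h.cocycle_inv hg] at h1
  have h2 : (a : ℕ) • ((τ * g * τ⁻¹) • v₀ - v₀) = g • v₀ - v₀ := by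
    rw [← Nat.cast_smul_eq_nsmul (ZMod p), ha]
    exact h.conj_cocycle τ hg v₀
  rw [h2, add_neg_cancel] at h1
  exact sub_eq_zero.mp h1

/-- if `ker χ` acts trivially and `χ` is nontrivial, the extension splits -/
lemma exists_compl_of_ker_le (hker : χ.ker ≤ kerAct G V) {σ₀ : G} (hσ₀ : χ σ₀ ≠ 1) :
    ∃ C' : Submodule (ZMod p) V, (∀ σ : G, ∀ x ∈ C', σ • x ∈ C') ∧ IsCompl C C' := by
  -- all elements commute on `V`
  have hcomm : ∀ (σ τ : G) (x : V), σ • τ • x = τ • σ • x := by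
    intro σ τ x
    have hc : σ * τ * σ⁻¹ * τ⁻¹ ∈ χ.ker := by
      rw [MonoidHom.mem_ker]
      simp only [map_mul, map_inv]
      rw [mul_comm (χ σ) (χ τ)]
      simp
    have := hker hc (τ • σ • x)
    rw [mul_smul, mul_smul, mul_smul, inv_smul_smul, inv_smul_smul] at this
    exact this
  set a : ZMod p := ((χ σ₀ : (ZMod p)ˣ) : ZMod p) with ha
  have ha1 : a - 1 ≠ 0 := by
    intro h0
    apply hσ₀
    apply Units.ext
    rw [Units.val_one]
    exact sub_eq_zero.mp h0
  -- the eigenspace of `σ₀` for the eigenvalue `a`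
  let C' : Submodule (ZMod p) V :=
    { carrier := {x | σ₀ • x = a • x}
      add_mem' := fun {x y} hx hy => by
        simp only [Set.mem_setOf_eq] at hx hy ⊢
        rw [smul_add, hx, hy, smul_add]
      zero_mem' := by simp
      smul_mem' := fun c x hx => by
        simp only [Set.mem_setOf_eq] at hx ⊢
        rw [smul_comm, hx, smul_comm] }
  refine ⟨C', ?_, ?_⟩
  · intro σ x hx
    show σ₀ • σ • x = a • σ • x
    rw [hcomm σ₀ σ x, show σ₀ • x = a • x from hx, smul_comm]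
  · constructor
    · rw [Submodule.disjoint_def]
      intro x hxC hxC'
      have h1 : σ₀ • x = x := h.fixed_sub σ₀ x hxC
      have h2 : σ₀ • x = a • x := hxC'
      have h3 : (a - 1) • x = 0 := by
        rw [sub_smul, one_smul, ← h2, h1, sub_self]
      have := congrArg (fun y => (a - 1)⁻¹ • y) h3
      simpa [smul_smul, inv_mul_cancel₀ ha1] using this
    · rw [codisjoint_iff, eq_top_iff]
      intro x _
      -- `x = (a - 1)⁻¹ • (a x - σ₀ x) + (a - 1)⁻¹ • (σ₀ x - x)`
      have hc : σ₀ • x - a • x ∈ C := h.cyclo_quot σ₀ x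
      have hmem1 : (a - 1)⁻¹ • (a • x - σ₀ • x) ∈ C := by
        apply C.smul_mem
        have := C.neg_mem hc
        rwa [neg_sub] at this
      have hmem2 : (a - 1)⁻¹ • (σ₀ • x - x) ∈ C' := by
        apply C'.smul_mem
        show σ₀ • (σ₀ • x - x) = a • (σ₀ • x - x)
        -- `σ₀ (σ₀ x - a x) = σ₀ x - a x`
        have hfix := h.fixed_sub σ₀ _ hc
        rw [smul_sub, smul_comm σ₀ a x] at hfix
        rw [smul_sub, smul_sub]
        have : σ₀ • σ₀ • x = σ₀ • x - a • x + a • σ₀ • x := by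
          rw [← hfix]; abel
        rw [this]; abel
      have hsum : x = (a - 1)⁻¹ • (a • x - σ₀ • x) + (a - 1)⁻¹ • (σ₀ • x - x) := by
        rw [← smul_add]
        have : a • x - σ₀ • x + (σ₀ • x - x) = (a - 1) • x := by
          rw [sub_smul, one_smul]; abel
        rw [this, smul_smul, inv_mul_cancel₀ ha1, one_smul]
      rw [hsum]
      exact Submodule.add_mem_sup hmem1 hmem2

/-- if the extension does not split and `χ` is nontrivial, some element of `ker χ` acts
nontrivially -/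
lemma exists_mem_ker_not_mem_kerAct
    (hns : ¬ ∃ C' : Submodule (ZMod p) V, (∀ σ : G, ∀ x ∈ C', σ • x ∈ C') ∧ IsCompl C C')
    {σ₀ : G} (hσ₀ : χ σ₀ ≠ 1) : ∃ g ∈ χ.ker, g ∉ kerAct G V := by
  by_contra hcon
  push_neg at hcon
  exact hns (h.exists_compl_of_ker_le hcon hσ₀)

/-- `ker χ / N` is cyclic of order `p`: any `g' ∈ ker χ` is `g ^ k` modulo `N` when `g ∉ N` -/
lemma exists_pow_mul_inv_mem {g : G} (hg : g ∈ χ.ker) (hgN : g ∉ kerAct G V) {g' : G}
    (hg' : g' ∈ χ.ker) : ∃ k : ℕ, k < p ∧ g' * (g ^ k)⁻¹ ∈ kerAct G V := by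
  haveI : NeZero p := ⟨(Fact.out : p.Prime).ne_zero⟩
  obtain ⟨v₀, hv₀⟩ := h.exists_not_mem
  -- `d g ≠ 0` generates `C`
  have hd : g • v₀ - v₀ ≠ 0 := fun h0 =>
    hgN (h.mem_kerAct_of_fix hg hv₀ (sub_eq_zero.mp h0))
  have hdC : g • v₀ - v₀ ∈ C := h.smul_sub_mem hg v₀
  have hd'C : g' • v₀ - v₀ ∈ C := h.smul_sub_mem hg' v₀
  -- every element of `C` is a multiple of `d g`
  have hgen : ∀ c ∈ C, ∃ b : ZMod p, c = b • (g • v₀ - v₀) := by
    haveI := h.finite_V
    haveI : Finite C := Finite.of_injective _ Subtype.val_injective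
    let f : ZMod p → C := fun b => ⟨b • (g • v₀ - v₀), C.smul_mem b hdC⟩
    have hinj : Function.Injective f := by
      intro b b' hbb
      have h1 : b • (g • v₀ - v₀) = b' • (g • v₀ - v₀) := congrArg Subtype.val hbb
      by_contra hne
      have hne' : b - b' ≠ 0 := sub_ne_zero.mpr hne
      have h2 : (b - b') • (g • v₀ - v₀) = 0 := by rw [sub_smul, h1, sub_self]
      have := congrArg (fun y => (b - b')⁻¹ • y) h2
      simp only [smul_smul, inv_mul_cancel₀ hne', one_smul, smul_zero] at this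
      exact hd this
    have hcard : Nat.card (ZMod p) = Nat.card C := by rw [Nat.card_zmod, h.card_sub]
    have hbij := (Nat.bijective_iff_injective_and_card f).mpr ⟨hinj, hcard⟩
    intro c hc
    obtain ⟨b, hb⟩ := hbij.2 ⟨c, hc⟩
    exact ⟨b, (congrArg Subtype.val hb).symm⟩
  obtain ⟨b, hb⟩ := hgen _ hd'C
  refine ⟨b.val, ZMod.val_lt b, ?_⟩
  have hmem : g' * (g ^ b.val)⁻¹ ∈ χ.ker :=
    χ.ker.mul_mem hg' (χ.ker.inv_mem (χ.ker.pow_mem hg _))
  apply h.mem_kerAct_of_fix hmem hv₀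
  have h1 := h.cocycle_mul hg' (χ.ker.inv_mem (χ.ker.pow_mem hg b.val)) v₀
  rw [h.cocycle_inv (χ.ker.pow_mem hg b.val), h.cocycle_pow hg, hb,
    ← Nat.cast_smul_eq_nsmul (ZMod p), ZMod.natCast_zmod_val, add_neg_cancel] at h1
  exact sub_eq_zero.mp h1

end Adm

end Fermat.Agent.S14.GlueCoc
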