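import Mathlib
import Fermat.Prelude.Def_ExtCitation_AdmissibleExtension_v2
import Fermat.Prelude.Def_ExtCitation_KummerBridge
import Fermat.Agent.S14.GlueCoc.Algebra

/-!
# P-CFT (S14), module G-COC, part 2: the field cut out by a non-split admissible extension

For an admissible extension `V` (Prelude `ExtCitation.IsAdmissibleExtensionCts`) which does not
split globally we study the kernel `N` of the Galois action and its fixed field `E`.
-/

set_option autoImplicit false

namespace Fermat.Agent.S14.GlueCoc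

open ExtCitation

local notation "Qbar" => AlgebraicClosure ℚ
local notation "GQ" => (AlgebraicClosure ℚ ≃ₐ[ℚ] AlgebraicClosure ℚ)

/-- `Qbar / ℚ` is Galois -/
theorem GCOC_isGalois_Qbar : IsGalois ℚ Qbar :=
  haveI : IsAlgClosure ℚ Qbar := ⟨inferInstance, AlgebraicClosure.isAlgebraic ℚ⟩
  IsAlgClosure.isGalois ℚ Qbar

/-- transport `IsGalois` along the (unique) `ℚ`-algebra structure -/
theorem GCOC_isGalois_transport {F : Type*} [Field F] (i₁ i₂ : Algebra ℚ F)
    (h : @IsGalois ℚ _ F _ i₁) : @IsGalois ℚ _ F _ i₂ := by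
  have : i₁ = i₂ := Subsingleton.elim _ _
  subst this
  exact h

variable {p : ℕ} [Fact p.Prime]

/-- the defining property of the mod `p` cyclotomic character on `p`-th roots of unity -/
lemma GCOC_cycloChar_spec (σ : GQ) {t : Qbar} (ht : t ^ p = 1) :
    σ t = t ^ cycloExp p σ := by
  haveI : NeZero p := ⟨(Fact.out : p.Prime).ne_zero⟩
  have ht0 : t ≠ 0 := by
    rintro rfl
    rw [zero_pow (Fact.out : p.Prime).ne_zero] at ht
    exact zero_ne_one ht
  let u : Qbarˣ := Units.mk0 t ht0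
  have hu : u ∈ rootsOfUnity p Qbar := by
    rw [mem_rootsOfUnity]
    apply Units.ext
    simpa [u] using ht
  have := modularCyclotomicCharacter.spec Qbar (card_rootsOfUnity_eq_self p)
    (σ : Qbar ≃+* Qbar) hu
  simpa [u, cycloExp] using this

lemma GCOC_cycloExp_eq_one_of_mem_ker {σ : GQ} (hσ : σ ∈ (cycloChar p).ker) :
    cycloExp p σ = 1 := by
  haveI : NeZero p := ⟨(Fact.out : p.Prime).ne_zero⟩
  haveI : Fact (1 < p) := ⟨(Fact.out : p.Prime).one_lt⟩
  rw [MonoidHom.mem_ker] at hσ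
  rw [← val_cycloChar, hσ, Units.val_one, ZMod.val_one]

/-- elements of the kernel of the cyclotomic character fix the `p`-th roots of unity -/
lemma GCOC_fix_of_mem_ker {σ : GQ} (hσ : σ ∈ (cycloChar p).ker) {t : Qbar} (ht : t ^ p = 1) :
    σ t = t := by
  rw [GCOC_cycloChar_spec σ ht, GCOC_cycloExp_eq_one_of_mem_ker hσ, pow_one]

/-- an automorphism fixing a primitive `p`-th root of unity lies in the kernel of the
cyclotomic character -/
lemma GCOC_mem_ker_of_fix {σ : GQ} {ζ : Qbar} (hζ : IsPrimitiveRoot ζ p) (hfix : σ ζ = ζ) :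
    σ ∈ (cycloChar p).ker := by
  haveI : NeZero p := ⟨(Fact.out : p.Prime).ne_zero⟩
  haveI : Fact (1 < p) := ⟨(Fact.out : p.Prime).one_lt⟩
  rw [MonoidHom.mem_ker]
  have h1 := GCOC_cycloChar_spec σ hζ.pow_eq_one
  rw [hfix] at h1
  have h2 : cycloExp p σ = 1 := by
    have hlt : cycloExp p σ < p := by
      rw [← val_cycloChar]; exact ZMod.val_lt _
    have := hζ.pow_inj (Fact.out : p.Prime).one_lt hlt (by rw [pow_one]; exact h1)
    exact this.symm
  apply Units.ext
  apply ZMod.val_injective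
  rw [val_cycloChar, h2, Units.val_one, ZMod.val_one]

/-- for `p ≥ 3` the mod `p` cyclotomic character is nontrivial -/
lemma GCOC_exists_cycloChar_ne_one (h3 : 3 ≤ p) : ∃ σ : GQ, cycloChar p σ ≠ 1 := by
  haveI : NeZero p := ⟨(Fact.out : p.Prime).ne_zero⟩
  obtain ⟨ζ, hζ⟩ := HasEnoughRootsOfUnity.exists_primitiveRoot Qbar p
  by_contra hcon
  push Not at hcon
  -- `ζ` is fixed by everything, hence rational
  have hfix : ∀ σ : GQ, σ ζ = ζ := fun σ =>
    GCOC_fix_of_mem_ker (MonoidHom.mem_ker.mpr (hcon σ)) hζ.pow_eq_one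
  haveI := GCOC_isGalois_Qbar
  obtain ⟨q, hq⟩ := (InfiniteGalois.mem_range_algebraMap_iff_fixed (k := ℚ) (K := Qbar) ζ).mpr hfix
  have hp := (Fact.out : p.Prime)
  have hodd : Odd p := hp.odd_of_ne_two (by omega)
  have hqp : q ^ p = 1 := by
    have : (algebraMap ℚ Qbar) (q ^ p) = (algebraMap ℚ Qbar) 1 := by
      rw [map_pow, hq, hζ.pow_eq_one, map_one]
    exact (algebraMap ℚ Qbar).injective this
  have hq1 : q = 1 := by
    have := hodd.strictMono_pow (R := ℚ)
    apply this.injective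
    simp only [hqp, one_pow]
  rw [hq1, map_one] at hq
  exact hζ.ne_one hp.one_lt hq.symm

variable {V : Type} [AddCommGroup V] [Module (ZMod p) V]
  [DistribMulAction GQ V] [SMulCommClass GQ (ZMod p) V] {C : Submodule (ZMod p) V}

/-- the Prelude hypotheses give the abstract ones for the cyclotomic character -/
lemma GCOC_adm (h : IsAdmissibleExtension p V C) : Adm (cycloChar p) C where
  fixed_sub := h.fixed_sub
  cyclo_quot := fun σ x => by rw [coe_cycloChar]; exact h.cyclo_quot σ x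
  card_sub := h.card_sub
  card_total := h.card_total

lemma GCOC_isOpen_kerAct (h : IsAdmissibleExtensionCts p V C) :
    IsOpen ((kerAct GQ V : Subgroup GQ) : Set GQ) := h.open_kernel

lemma GCOC_isClosed_kerAct (h : IsAdmissibleExtensionCts p V C) :
    IsClosed ((kerAct GQ V : Subgroup GQ) : Set GQ) :=
  Subgroup.isClosed_of_isOpen _ (GCOC_isOpen_kerAct h)

/-- the field cut out by `V` -/
noncomputable def GCOC_field (V : Type) [AddCommGroup V] [DistribMulAction GQ V] :
    IntermediateField ℚ Qbar :=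
  IntermediateField.fixedField (kerAct GQ V)

lemma GCOC_fixingSubgroup (h : IsAdmissibleExtensionCts p V C) :
    (GCOC_field V).fixingSubgroup = kerAct GQ V :=
  haveI := GCOC_isGalois_Qbar
  InfiniteGalois.fixingSubgroup_fixedField
    (⟨kerAct GQ V, GCOC_isClosed_kerAct h⟩ : ClosedSubgroup GQ)

lemma GCOC_finiteDimensional (h : IsAdmissibleExtensionCts p V C) :
    FiniteDimensional ℚ (GCOC_field V) := by
  haveI := GCOC_isGalois_Qbar
  have h1 : IsOpen (GCOC_field V).fixingSubgroup.carrier := by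
    rw [GCOC_fixingSubgroup h]
    exact GCOC_isOpen_kerAct h
  have h2 := (InfiniteGalois.isOpen_iff_finite (GCOC_field V)).mp h1
  convert h2

lemma GCOC_isGalois (h : IsAdmissibleExtensionCts p V C) :
    IsGalois ℚ (GCOC_field V) := by
  haveI := GCOC_isGalois_Qbar
  have h1 : (GCOC_field V).fixingSubgroup.Normal := by
    rw [GCOC_fixingSubgroup h]
    infer_instance
  exact GCOC_isGalois_transport _ _ ((InfiniteGalois.normal_iff_isGalois (GCOC_field V)).mp h1)

/-- the `p`-th roots of unity lie in the field cut out by `V` -/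
lemma GCOC_root_mem (h : IsAdmissibleExtensionCts p V C) {t : Qbar} (ht : t ^ p = 1) :
    t ∈ GCOC_field V := by
  intro σ
  exact GCOC_fix_of_mem_ker ((GCOC_adm h.toIsAdmissibleExtension).kerAct_le_ker σ.2) ht

/-- a non-split extension: some element of `Γ_K` acts nontrivially -/
lemma GCOC_exists_nontrivial (h : IsAdmissibleExtensionCts p V C) (h3 : 3 ≤ p)
    (hns : ¬ SplitsGlobally C) : ∃ g ∈ (cycloChar p).ker, g ∉ kerAct GQ V := by
  obtain ⟨σ₀, hσ₀⟩ := GCOC_exists_cycloChar_ne_one (p := p) h3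
  exact (GCOC_adm h.toIsAdmissibleExtension).exists_mem_ker_not_mem_kerAct hns hσ₀

/-- inertia at `ℓ ≠ p` acts trivially -/
lemma GCOC_inertia_le (h : IsAdmissibleExtensionCts p V C) {ℓ : ℕ} (hℓ : ℓ.Prime) (hℓp : ℓ ≠ p)
    (A : ValuationSubring Qbar) (hA : A.LiesOverPrime ℓ) :
    A.inertiaSubgroupIn ℚ ≤ kerAct GQ V :=
  fun σ hσ v => h.unramified_outside ℓ hℓ hℓp A hA σ hσ v

/-- the decomposition group at `p` meets `Γ_K` inside the kernel of the action -/
lemma GCOC_decomposition_inf_le (h : IsAdmissibleExtensionCts p V C)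
    (A : ValuationSubring Qbar) (hA : A.LiesOverPrime p) :
    A.decompositionSubgroup ℚ ⊓ (cycloChar p).ker ≤ kerAct GQ V := by
  rintro g ⟨hgD, hgK⟩ v
  obtain ⟨C', hstab, hcompl⟩ := h.locally_split A hA
  have hadm := GCOC_adm h.toIsAdmissibleExtension
  -- decompose `v = c + c'`
  have htop : v ∈ C ⊔ C' := by rw [hcompl.sup_eq_top]; trivial
  obtain ⟨c, hc, c', hc', rfl⟩ := Submodule.mem_sup.mp htop
  have h1 : g • c = c := h.fixed_sub g c hc
  have h2 : g • c' = c' := by
    have hmemC : g • c' - c' ∈ C := hadm.smul_sub_mem hgK c'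
    have hmemC' : g • c' - c' ∈ C' := C'.sub_mem (hstab g hgD c' hc') hc'
    have : g • c' - c' ∈ C ⊓ C' := ⟨hmemC, hmemC'⟩
    rw [hcompl.inf_eq_bot, Submodule.mem_bot] at this
    exact sub_eq_zero.mp this
  rw [smul_add, h1, h2]

/-- the conjugation law -/
lemma GCOC_conj (h : IsAdmissibleExtensionCts p V C) (τ : GQ) {g : GQ}
    (hg : g ∈ (cycloChar p).ker) (a : ℕ) {ζ : Qbar} (hζ : IsPrimitiveRoot ζ p)
    (ha : τ ζ = ζ ^ a) : (τ * g * τ⁻¹) ^ a * g⁻¹ ∈ kerAct GQ V := by
  haveI : NeZero p := ⟨(Fact.out : p.Prime).ne_zero⟩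
  apply (GCOC_adm h.toIsAdmissibleExtension).conj_pow_mul_inv_mem τ hg a
  -- `a ≡ cycloExp p τ mod p`
  have h1 := GCOC_cycloChar_spec τ hζ.pow_eq_one
  rw [ha] at h1
  have h2 : (a : ZMod p) = (cycloExp p τ : ZMod p) := by
    rw [ZMod.natCast_eq_natCast_iff]
    have hζ0 : ζ ≠ 0 := hζ.ne_zero (Fact.out : p.Prime).ne_zero
    have hu : IsPrimitiveRoot (Units.mk0 ζ hζ0) p :=
      IsPrimitiveRoot.coe_units_iff.mp (by simpa using hζ)
    have h1' : (Units.mk0 ζ hζ0) ^ a = (Units.mk0 ζ hζ0) ^ cycloExp p τ := by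
      apply Units.ext
      simpa using h1
    have := pow_eq_pow_iff_modEq.mp h1'
    rwa [← hu.eq_orderOf] at this
  rw [h2, coe_cycloChar]

end Fermat.Agent.S14.GlueCoc
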