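import Mathlib
import Fermat.Prelude.Def_ExtCitation_AdmissibleExtension_v2
import Fermat.Prelude.Def_ExtCitation_KummerBridge
import Fermat.Agent.S14.GlueCoc.Algebra
import Fermat.Agent.S14.GlueCoc.Field

/-!
# P-CFT (S14), module G-COC, part 3: the degree of the field cut out by a non-split extension

`[G_ℚ : Γ_K] = p - 1` (surjectivity of the mod `p` cyclotomic character), `[Γ_K : N] = p`
(the cocycle is a surjection onto the line `C`), and `finrank ℚ E = [G_ℚ : N]`.
-/

set_option autoImplicit false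

namespace Fermat.Agent.S14.GlueCoc

open ExtCitation

local notation "Qbar" => AlgebraicClosure ℚ
local notation "GQ" => (AlgebraicClosure ℚ ≃ₐ[ℚ] AlgebraicClosure ℚ)

variable {p : ℕ} [Fact p.Prime]

/-- the mod `p` cyclotomic character of `G_ℚ` is surjective -/
lemma GCOC_cycloChar_surjective : Function.Surjective (cycloChar p) := by
  haveI : NeZero p := ⟨(Fact.out : p.Prime).ne_zero⟩
  haveI := GCOC_isGalois_Qbar
  haveI : Normal ℚ Qbar := inferInstance
  have hp := (Fact.out : p.Prime)
  obtain ⟨ζ, hζ⟩ := HasEnoughRootsOfUnity.exists_primitiveRoot Qbar p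
  intro u
  -- the exponent
  set a : ℕ := (u : ZMod p).val with ha
  have hcop : a.Coprime p := by
    rw [ha]
    exact (ZMod.val_coe_unit_coprime u)
  have hζa : IsPrimitiveRoot (ζ ^ a) p := hζ.pow_of_coprime a hcop
  -- `ζ ^ a` is a root of the minimal polynomial of `ζ`
  have hirr : Irreducible (Polynomial.cyclotomic p ℚ) :=
    Polynomial.cyclotomic.irreducible_rat hp.pos
  have hmin : Polynomial.cyclotomic p ℚ = minpoly ℚ (ζ ^ a) :=
    hζa.minpoly_eq_cyclotomic_of_irreducible hirr
  have hroot : Polynomial.aeval ζ (minpoly ℚ (ζ ^ a)) = 0 := by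
    rw [← hmin]
    have h1 : (Polynomial.cyclotomic p Qbar).IsRoot ζ := Polynomial.isRoot_cyclotomic_iff.mpr hζ
    rw [Polynomial.IsRoot.def, ← Polynomial.map_cyclotomic p (algebraMap ℚ Qbar),
      Polynomial.eval_map_algebraMap] at h1
    exact h1
  have halg : IsAlgebraic ℚ (ζ ^ a) := Algebra.IsAlgebraic.isAlgebraic _
  obtain ⟨σ, hσ⟩ := minpoly.exists_algEquiv_of_root halg hroot
  refine ⟨σ, ?_⟩
  -- identify the character
  have h1 := GCOC_cycloChar_spec σ hζ.pow_eq_one
  rw [hσ] at h1
  have hlt1 : a < p := by rw [ha]; exact ZMod.val_lt _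
  have hlt2 : cycloExp p σ < p := by rw [← val_cycloChar]; exact ZMod.val_lt _
  have h2 : a = cycloExp p σ := hζ.pow_inj hlt1 hlt2 h1
  apply Units.ext
  apply ZMod.val_injective
  rw [val_cycloChar, ← h2]

/-- `[G_ℚ : Γ_K] = p - 1` -/
lemma GCOC_index_ker : (cycloChar p).ker.index = p - 1 := by
  rw [Subgroup.index_ker, MonoidHom.range_eq_top.mpr GCOC_cycloChar_surjective,
    Subgroup.card_top, Nat.card_eq_fintype_card, ZMod.card_units]

variable {V : Type} [AddCommGroup V] [Module (ZMod p) V]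
  [DistribMulAction GQ V] [SMulCommClass GQ (ZMod p) V] {C : Submodule (ZMod p) V}

/-- the cocycle as a homomorphism `Γ_K → C` -/
noncomputable def GCOC_coc (h : IsAdmissibleExtension p V C) (v₀ : V) :
    (cycloChar p).ker →* Multiplicative C where
  toFun g := Multiplicative.ofAdd
    ⟨(g : GQ) • v₀ - v₀, (GCOC_adm h).smul_sub_mem g.2 v₀⟩
  map_one' := by
    rw [← ofAdd_zero]
    congr 1
    apply Subtype.ext
    simp
  map_mul' g g' := by
    rw [← ofAdd_add]
    congr 1
    apply Subtype.ext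
    simpa using (GCOC_adm h).cocycle_mul g.2 g'.2 v₀

lemma GCOC_coc_ker (h : IsAdmissibleExtension p V C) {v₀ : V} (hv₀ : v₀ ∉ C) :
    (GCOC_coc h v₀).ker = (kerAct GQ V).subgroupOf (cycloChar p).ker := by
  ext g
  rw [MonoidHom.mem_ker, Subgroup.mem_subgroupOf]
  constructor
  · intro hg
    have h1 : ((g : GQ) • v₀ - v₀ : V) = 0 := by
      have := congrArg (fun x : Multiplicative C => ((Multiplicative.toAdd x : C) : V)) hg
      simpa [GCOC_coc] using this
    exact (GCOC_adm h).mem_kerAct_of_fix g.2 hv₀ (sub_eq_zero.mp h1)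
  · intro hg
    have h1 : (g : GQ) • v₀ = v₀ := hg v₀
    show Multiplicative.ofAdd (⟨(g : GQ) • v₀ - v₀, _⟩ : C) = 1
    rw [← ofAdd_zero]
    congr 1
    apply Subtype.ext
    simp [h1]

/-- `[Γ_K : N] = p` for a non-split extension -/
lemma GCOC_relIndex (h : IsAdmissibleExtensionCts p V C) (h3 : 3 ≤ p)
    (hns : ¬ SplitsGlobally C) : (kerAct GQ V).relIndex (cycloChar p).ker = p := by
  have hadm := GCOC_adm h.toIsAdmissibleExtension
  obtain ⟨v₀, hv₀⟩ := hadm.exists_not_mem
  obtain ⟨g₀, hg₀K, hg₀N⟩ := GCOC_exists_nontrivial h h3 hns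
  have hcard : Nat.card (Multiplicative C) = p := by
    rw [Nat.card_congr Multiplicative.toAdd]; exact h.card_sub
  haveI : Fact (Nat.card (Multiplicative C)).Prime := ⟨by rw [hcard]; exact Fact.out⟩
  have hrange : (GCOC_coc h.toIsAdmissibleExtension v₀).range = ⊤ := by
    rcases Subgroup.eq_bot_or_eq_top_of_prime_card
      (GCOC_coc h.toIsAdmissibleExtension v₀).range with hbot | htop
    · exfalso
      apply hg₀N
      have hmem : (⟨g₀, hg₀K⟩ : (cycloChar p).ker) ∈
          (GCOC_coc h.toIsAdmissibleExtension v₀).ker := by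
        rw [MonoidHom.mem_ker, ← Subgroup.mem_bot, ← hbot]
        exact ⟨_, rfl⟩
      rw [GCOC_coc_ker h.toIsAdmissibleExtension hv₀, Subgroup.mem_subgroupOf] at hmem
      exact hmem
    · exact htop
  rw [Subgroup.relIndex, ← GCOC_coc_ker h.toIsAdmissibleExtension hv₀, Subgroup.index_ker,
    hrange, Subgroup.card_top, hcard]

/-- `[G_ℚ : N] = p (p - 1)` -/
lemma GCOC_index_kerAct (h : IsAdmissibleExtensionCts p V C) (h3 : 3 ≤ p)
    (hns : ¬ SplitsGlobally C) : (kerAct GQ V).index = p * (p - 1) := by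
  rw [← Subgroup.relIndex_mul_index
    ((GCOC_adm h.toIsAdmissibleExtension).kerAct_le_ker), GCOC_relIndex h h3 hns,
    GCOC_index_ker]

/-- the degree of the field cut out by `V` is the index of the kernel of the action -/
lemma GCOC_finrank_eq_index (h : IsAdmissibleExtensionCts p V C) :
    Module.finrank ℚ (GCOC_field V) = (kerAct GQ V).index := by
  haveI := GCOC_isGalois_Qbar
  haveI hfin := GCOC_finiteDimensional h
  haveI hgal := GCOC_isGalois h
  let H : ClosedSubgroup GQ := ⟨kerAct GQ V, GCOC_isClosed_kerAct h⟩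
  haveI : H.1.Normal := (inferInstance : (kerAct GQ V).Normal)
  have e := InfiniteGalois.normalAutEquivQuotient H
  have h1 : Nat.card (GQ ⧸ kerAct GQ V) =
      Nat.card Gal(IntermediateField.fixedField (kerAct GQ V)/ℚ) := Nat.card_congr e.toEquiv
  rw [Subgroup.index_eq_card, h1]
  have h2 := IsGalois.card_aut_eq_finrank ℚ (GCOC_field V)
  rw [← h2]
  rfl

end Fermat.Agent.S14.GlueCoc
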